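import Fermat.Statements.S27
import Fermat.Agent.AV.F5_6.Final
import Fermat.Agent.AV.Hedge81.S26Final

set_option autoImplicit false
set_option autoImplicit false
open AlgebraicCurve
open AlgebraicCurve AlgebraicCurve.Pic0

namespace Fermat.Agent.S27

/-- S27 from the AV programme: F0-F5 (`AV/F5_6/Final.s27_of_s26`: the function field is realised by
a curve model, its Jacobian (S25) is an abelian variety of dimension `genusFF` whose `K`-points
are `Pic0`) + S26 (`deg [n] = n^(2g)`, here in the hedge assembly `AV/Hedge81/S26Final.s26`). -/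
theorem result
    (K F : Type*) [Field K] [Field F] [Algebra K F] [IsAlgClosed K] [CharZero K]
    [IsCurveOver K F] [Algebra.EssFiniteType K F]
    (ℓ : ℕ) [Fact ℓ.Prime] (k : ℕ) :
    Nat.card (Pic0.torsion K F (ℓ ^ k)) = ℓ ^ (2 * genusFF K F * k) :=
  Fermat.Agent.AV.F5_6.Final.s27_of_s26
    (fun K _ _ _ f L hc hA g _ n hn => Fermat.Agent.AV.Hedge81.s26 K f L hc hA g n hn) K F ℓ k

end Fermat.Agent.S27
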