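-- Statement S05 (row 5): the mod-p Galois representation of the Frey curve is unramified at every
-- prime q with q not in {2, p}. The statement below is byte-identical to the frozen statement
-- (Fermat/Statements/S05.lean; the theorem FreyPackage.freyGaloisRep_isUnramifiedAt). Complete proof:
-- the helpers live under Fermat/Agent/S05/.
import Fermat.Statements.S05
import Fermat.Agent.S05.Final
import Fermat.Agent.S05.KernelContract
import Fermat.Agent.S05.Components

set_option autoImplicit false
open WeierstrassCurve WeierstrassCurve.Affine WeierstrassCurve.Affine.Point
open CuspForm ModularFormClass UpperHalfPlane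
open FreyPackage

namespace Fermat.Agent.S05

/-- The kernel-of-reduction facts (piece P3) in the shape consumed by `Final.result_of_coord`. -/
theorem kernelFactsQ : Glue.KernelFactsQ := KernelContract.kernelFacts

/-- The consequence of the component homomorphism (piece P5b) in the shape consumed by
`Final.result_of_coord`. -/
theorem branchQ : Final.BranchQ := by
  intro A a b h2 hb hb0 α hα hαv n x y h hx1 hxb hn
  exact comp_torsion A.valuation h2 hb hb0 α hα hαv h hx1 hxb hn

theorem result (P : FreyPackage) {q : ℕ} (hq : q.Prime) (hq2 : q ≠ 2) (hqp : q ≠ P.p) : P.GaloisRepUnramifiedAt q := by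
  exact Final.result_of_coord P hq hq2 hqp kernelFactsQ branchQ

end Fermat.Agent.S05
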