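-- S17: Mordell-Weil for J_0(N): the group of rational points `J_0(N)(ℚ)` is finitely generated.
-- Route (programme MW, masterplan report 721): descent (`AddCommGroup.fg_of_descent`) with
--   * weak Mordell-Weil for `2` (`MW.Weak65`: Kummer/Hermite-Minkowski + divisibility `MW.Div73`),
--   * the height `h_s ∘ β` on `J_0(N)(Qbar)` of a generating family of `O(2D)` on the Jacobian of the
--     model curve (`MW.JData`, `MW.GeomCore`): quasi-quadraticity from the theorems of the
--     square and of the cube (programme AV) + the key lemma of the height machine (`MW.HM73`),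
--   * Northcott via the reduced divisor and the stratified integrality bound (`MW.NorthB25`);
-- assembled in `MW.S17Core73.s17_of_hweak`.
import Fermat.Statements.S17
import Fermat.Agent.MW.S17Core73
import Fermat.Agent.MW.Weak65.Hweak

set_option autoImplicit false
open ModularCurve AlgebraicCurve
open ModularCurve ModularCurve.JZero

namespace Fermat.Agent.S17

theorem result (N : ℕ) [NeZero N] (hN : N.Prime) (hN5 : 5 ≤ N) :
    AddGroup.FG ↥(FixedPoints.addSubgroup ((AlgebraicClosure ℚ) ≃ₐ[ℚ] (AlgebraicClosure ℚ)) (JZero N)) :=
  Fermat.Agent.MW.s17_of_hweak N (Fermat.Agent.MW.Weak65.hweak N)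

end Fermat.Agent.S17
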