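-- S15 (Mazur, step three): a rational point `Q` of prime order `p ∉ {2, 3, 5, 7, 13}` on a curve with
-- multiplicative reduction at `2`, `3`, `ℓ` which is outside the zero component at `2` and `3` is outside
-- the zero component at `ℓ`.  Route (programme MAZ): the moduli place of `(E, ⟨Q⟩)` on `X₀(p)`, its
-- reductions to the cusps, the Eisenstein quotient argument (`Endgame88.Core`), with the finiteness input
-- (FIN') from the Selmer bound (`FinAbs19`, `SSelInst97`) — assembled in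
-- `MAZ/Endgame88/{Core,Inst,Hmem,Fin,Top,TopFinal,Closed}.lean`.  The three last leaves:
--   * Mordell–Weil for `J₀(p)`            := `Fermat.Agent.S17.result`;
--   * (A3') `|G_k| ≤ |G_k^{⟨c⟩}|²`        := `A3Conj72.card_GmMod_le_card_Inv_conj_sq'` (helper72);
--   * (K3) `I_p`-fixed division points     := `K3Asm7.leafK3_hub` (helper7, T1B-U).
import Fermat.Statements.S15
import Fermat.Agent.S17
import Fermat.Agent.MAZ.Endgame88.Closed
import Fermat.Agent.MAZ.K3Asm7.Hub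
import Fermat.Agent.MAZ.A3Conj72.FinalInv

set_option autoImplicit false
open WeierstrassCurve WeierstrassCurve.Affine
open WeierstrassCurve

namespace Fermat.Agent.S15

theorem result
    {p : ℕ} (hp : p.Prime) (hp' : p ∉ ({2, 3, 5, 7, 13} : Finset ℕ))
    (W : WeierstrassCurve ℤ) (hΔ : W.Δ ≠ 0)
    (Q : ((W.map (Int.castRingHom ℚ))⁄(AlgebraicClosure ℚ)).Point)
    (hQfix : ∀ σ : AlgebraicClosure ℚ ≃ₐ[ℚ] AlgebraicClosure ℚ, σ • Q = Q)
    (hQord : addOrderOf Q = p)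
    (h2Δ : (2 : ℤ) ∣ W.Δ) (h2c₄ : ¬ (2 : ℤ) ∣ W.c₄)
    (h2 : ∀ A : ValuationSubring (AlgebraicClosure ℚ), A.LiesOverPrime 2 → ¬ W.InZeroComponentAt A Q)
    (h3Δ : (3 : ℤ) ∣ W.Δ) (h3c₄ : ¬ (3 : ℤ) ∣ W.c₄)
    (h3 : ∀ A : ValuationSubring (AlgebraicClosure ℚ), A.LiesOverPrime 3 → ¬ W.InZeroComponentAt A Q)
    {ℓ : ℕ} (hℓ : ℓ.Prime) (hℓp : ℓ ≠ p) (hℓΔ : (ℓ : ℤ) ∣ W.Δ) (hℓc₄ : ¬ (ℓ : ℤ) ∣ W.c₄)
    (A : ValuationSubring (AlgebraicClosure ℚ)) (hA : A.LiesOverPrime ℓ) :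
    ¬ W.InZeroComponentAt A Q := by
  haveI : NeZero p := ⟨hp.ne_zero⟩
  have h5 : 5 ≤ p := Fermat.Agent.MAZ.Endgame88.five_le_of_notMem hp hp'
  exact Fermat.Agent.MAZ.Endgame88.s15_of_providers hp hp' W hΔ Q hQfix hQord
    (Fermat.Agent.S17.result p hp h5)
    (fun S hpS r _ hdiv k =>
      Fermat.Agent.MAZ.A3Conj72.card_GmMod_le_card_Inv_conj_sq' p hp S hpS r hdiv k)
    (fun r hr hrp => Fermat.Agent.MAZ.K3Asm7.leafK3_hub hp h5 hr hrp)
    h2Δ h2c₄ h2 h3Δ h3c₄ h3 hℓ hℓp hℓΔ hℓc₄ A hA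

end Fermat.Agent.S15
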