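-- S12 (`FreyPackage.frey_no_cofixed_large`): no Galois-stable cofixed line on the Frey curve for
-- `p ≥ 17`.  One-step route: S15 (Mazur, step three) ⟹ S12, see
-- `Fermat/Agent/S12P/Top51/Final.lean` (`s12_of_s15`).  This file builds as soon as
-- `Fermat/Agent/S15.lean` is present.
import Fermat.Statements.S12
import Fermat.Agent.S15
import Fermat.Agent.S12P.Top51.Final

set_option autoImplicit false
open WeierstrassCurve WeierstrassCurve.Affine WeierstrassCurve.Affine.Point
open CuspForm ModularFormClass UpperHalfPlane
open FreyPackage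

namespace Fermat.Agent.S12

theorem result (P : FreyPackage) (hp : 17 ≤ P.p) : ¬ HasGaloisStableCofixedLine (K := AlgebraicClosure ℚ) ℚ P.freyCurve P.p :=
  Fermat.Agent.S12P.Top51.s12_of_s15 P @Fermat.Agent.S15.result hp

end Fermat.Agent.S12
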