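-- S09 (`FreyPackage.Mazur_Frey`): the mod-`p` representation of the Frey curve is irreducible.
-- Pure wiring (`Fermat/Agent/S09/Reduce.lean`): a reducible representation has a Galois-stable
-- cofixed line (S13), which is excluded for `p ∈ {5, 7, 13}` (S10), `p = 11` (S11), `p ≥ 17` (S12).
import Fermat.Statements.S09
import Fermat.Agent.S09.Reduce
import Fermat.Agent.S10
import Fermat.Agent.S11
import Fermat.Agent.S12
import Fermat.Agent.S13

set_option autoImplicit false
open WeierstrassCurve WeierstrassCurve.Affine WeierstrassCurve.Affine.Point
open CuspForm ModularFormClass UpperHalfPlane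
open FreyPackage

namespace Fermat.Agent.S09

theorem result (P : FreyPackage) : GaloisRepIsIrreducible (K := AlgebraicClosure ℚ) ℚ P.freyCurve P.p :=
  Fermat.Agent.S09.Reduce.irreducible_of_cofixed_statements Fermat.Agent.S13.result
    Fermat.Agent.S10.result Fermat.Agent.S11.result Fermat.Agent.S12.result P

end Fermat.Agent.S09
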