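-- Statement S48 (row 43): Deligne--Serre for weight-one Hecke eigenforms with nebentypus.
-- Programme DS: `DS/G/Top/Final.s48_of_local` (contract + W1-LIFT + G-DIM + Hecke/Kummer side) applied to
-- `DS/G/Top/LocalFinal.localStatement_of_kron` (reduction of `X₁(M)`, (R3), (Φ3)) and the KRON instance
-- `DS/G/Top/KronAtL1.kronAt_L1` (Eichler--Shimura with diamond at every reduction package).
import Fermat.Statements.S48
import Fermat.Agent.DS.G.Top.Final
import Fermat.Agent.DS.G.Top.LocalFinal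
import Fermat.Agent.DS.G.Top.KronAtL1

set_option autoImplicit false
set_option autoImplicit false
open CongruenceSubgroup
open scoped MatrixGroups
local notation "Γℚ" => (AlgebraicClosure ℚ ≃ₐ[ℚ] AlgebraicClosure ℚ)
open DeligneSerre

namespace Fermat.Agent.S48

theorem result
    (N : ℕ) [NeZero N] (ε : DirichletCharacter ℂ N) (f : CuspForm (Gamma1 N) 1)
    (hf₁ : ModularFormClass.qCoeff f 1 = 1)
    (hT : ∀ p : ℕ, p.Prime → ¬ p ∣ N → ∀ n : ℕ,
        ModularFormClass.qCoeff f (p * n) +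
            ε (p : ZMod N) * (if p ∣ n then ModularFormClass.qCoeff f (n / p) else 0) =
          ModularFormClass.qCoeff f p * ModularFormClass.qCoeff f n) :
    ∃ ρ : Γℚ →* GL (Fin 2) ℂ, GaloisFactorsThroughFiniteLevel ρ ∧
      (Deformation.matrixRepresentation ρ).IsIrreducible ∧
      ∀ p : ℕ, p.Prime → ¬ p ∣ N →
        ∀ A : ValuationSubring (AlgebraicClosure ℚ), A.LiesOverPrime p →
          (∀ σ ∈ A.inertiaSubgroupIn ℚ, ρ σ = 1) ∧
          ∀ σ : Γℚ, A.IsFrobeniusAt σ p →
            ((ρ σ : GL (Fin 2) ℂ) : Matrix (Fin 2) (Fin 2) ℂ).trace = ModularFormClass.qCoeff f p ∧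
            ((ρ σ : GL (Fin 2) ℂ) : Matrix (Fin 2) (Fin 2) ℂ).det = ε (p : ZMod N) :=
  Fermat.Agent.DS.G.Top.Final.s48_of_local
    (Fermat.Agent.DS.G.Top.LocalFinal.localStatement_of_kron
      (fun M _ hM p _ hpM A hA σ hσ hσp =>
        Fermat.Agent.DS.G.Top.KronAtL1.kronAt_L1 M hM p hpM A hA σ hσ hσp))
    N ε f hf₁ hT

end Fermat.Agent.S48
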