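import Fermat.Statements.S52
import Fermat.Agent.S52Top.KleinCore61
import Fermat.Agent.S52Top.GalR56
import Fermat.Agent.RedTors.HREL

set_option autoImplicit false
open WeierstrassCurve WeierstrassCurve.Affine WeierstrassCurve.Affine.Point
open CuspForm ModularFormClass UpperHalfPlane
open WeierstrassCurve

namespace Fermat.Agent.S52

open Fermat.Agent.S52K3 Fermat.Agent.S52Top.GalR56 Fermat.Agent.S52Top.KleinCore61 in
/-- The bridge between the explicit `KleinData` `Dk ζ hζ` (programme K, bricks B0/B1/K2) and the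
forms of `S52K4.Klein` used by K4/K5: `T` enters with the sign `s = -1`. -/
theorem bridgeDk (ζ : Qb) (hζ : IsPrimitiveRoot ζ 5) : Bridge (Dk ζ hζ) (-1) where
  hs := Or.inr rfl
  H_eq := fun v => by
    rw [Dk_H]
    unfold Fermat.Agent.S52K.Klein56.kH Fermat.Agent.S52K4.Klein.kH Fermat.Agent.S52K4.Klein.hXY
    ring
  T_eq := fun v => by
    rw [Dk_T]
    unfold Fermat.Agent.S52K.Klein56.kT Fermat.Agent.S52K4.Klein.kT Fermat.Agent.S52K4.Klein.tXY
    push_cast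
    ring
  g_eq := fun v => by
    rw [Dk_g]
    unfold Fermat.Agent.S52K.Klein56.g1 Fermat.Agent.S52K.Klein56.g2
      Fermat.Agent.S52K4.Klein.kf1 Fermat.Agent.S52K4.Klein.kf2
    refine Prod.ext ?_ ?_
    · show _ = _
      ring
    · show _ = _
      ring
  zeta5 := Dk_ζ_pow ζ hζ

theorem result (W : WeierstrassCurve ℤ) (hΔ : W.Δ ≠ 0) (hW : W.IsSemistableModel) (h5 : W.ModRepIsIrreducible 5) : ∃ W' : WeierstrassCurve ℤ, W'.Δ ≠ 0 ∧ W'.IsSemistableModel ∧ W'.ModRepIsIrreducible 3 ∧ ∀ ℓ : ℕ, ℓ.Prime → W.IsGoodPrimeFor ℓ → W'.IsGoodPrimeFor ℓ → ℓ ≠ 5 → (5 : ℤ) ∣ (W'.apOfModel ℓ - W.apOfModel ℓ) := by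
  obtain ⟨ζ, hζ⟩ := Fermat.Agent.S52Top.GalR56.exists_zeta
  exact Fermat.Agent.S52Top.KleinCore61.s52_of_klein Fermat.Agent.RedTors.relQbar
    (Fermat.Agent.S52Top.GalR56.Dk ζ hζ) (Fermat.Agent.S52Top.GalR56.fibres ζ hζ)
    (Fermat.Agent.S52Top.GalR56.ext ζ hζ) (bridgeDk ζ hζ) W hΔ hW h5

end Fermat.Agent.S52
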