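-- Statement S58: conductor–level matching for semistable integral Weierstrass curves.
-- Proof (Programme Q of the earlier team + the S58 squad): `ES/Q58/LocalOfEC12.s58_of_ecFacts`
-- reduces the statement to the two elliptic-curve facts `ECIface12.ECFacts W`:
--   * `inertia` : `InertiaMult.ecFacts_inertia` (semistability);
--   * `trace`   : `TraceCong20.trace_of_rel` from the Eichler–Shimura relation `FrobRel.relQbar`
--                 (Frobenius relation in characteristic `r`, `FrobRel/Final`, transferred to the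
--                 torsion of the generic fibre by `RedTors`).
import Fermat.Statements.S58
import Fermat.Agent.ES.Q58.LocalOfEC12
import Fermat.Agent.ES.Q58.TraceCong20
import Fermat.Agent.InertiaMult.Good
import Fermat.Agent.FrobRel.RelQbar

set_option autoImplicit false
set_option autoImplicit false
open WeierstrassCurve

namespace Fermat.Agent.S58

theorem result
    (W : WeierstrassCurve ℤ) (hss : W.IsSemistableModel) (N : ℕ)
    (p : ℕ) [Fact p.Prime] (hp2 : p ≠ 2) (hirr : W.ModRepIsIrreducible p)
    (hp2N : ¬ p ^ 2 ∣ N)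
    (hN : W.IsModularModelOfLevel N) (hbad : ∀ ℓ : ℕ, ℓ.Prime → (ℓ : ℤ) ∣ W.Δ → ℓ ∣ N)
    (hN3 : ∀ q : ℕ, q.Prime → ¬ q ^ 3 ∣ N) :
    W.IsModularModelOfLevel W.conductorLevel := by
  have hN0 : N ≠ 0 := Fermat.Agent.ES.Q58.TopA12.level_ne_zero hN3
  have hΔ : W.Δ ≠ 0 := Fermat.Agent.ES.Q58.TopA12.disc_ne_zero hN0 hbad
  have hEC : Fermat.Agent.ES.Q58.ECIface12.ECFacts W :=
    { inertia := Fermat.Agent.InertiaMult.ecFacts_inertia W hΔ hss
      trace := fun r hr hgood T =>
        Fermat.Agent.ES.Q58.TraceCong20.trace_of_rel W (Fermat.Agent.FrobRel.relQbar W) r hr hgood T }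
  exact Fermat.Agent.ES.Q58.LocalOfEC12.s58_of_ecFacts W N hN hbad hN3 hEC

end Fermat.Agent.S58
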